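/-
Fermat/Agent/T1B/Union81/IntSubDVR.lean  (helper81) -- T1B, TORIC-UNION stage 2b, input:
the ring of integers `𝒪_E = intSubring p E ⊆ ℚ̄_p` of a finite extension `E/ℚ_p` is a COMPLETE
discrete valuation ring (transport of `PT/LOC` along `IntSub47.intEquiv`), and the inclusions
`𝒪_E → 𝒪_L` (`E ≤ L`) are local.
Stated as theorems (no global instances), so that any instance layout of `LocalBase` fits.
-/
import Mathlib
import Fermat.Agent.T1.IntSub47
import Fermat.Agent.PT.LOC.Structure14
import Fermat.Agent.PT.LOC.StructureTower27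

set_option autoImplicit false
set_option linter.unusedSectionVars false
set_option linter.style.haveILetI false

open scoped Fermat.Agent.PT.LOC.Interface12
open Fermat.Agent.PT.LOC.Interface12 Fermat.Agent.PT.LOC.Structure14
open Fermat.Agent.TW.B5.Iface Fermat.Agent.TW.PmModel48 Fermat.Agent.TW.PmTwist48
open Fermat.Agent.T1.IntSub47

namespace Fermat.Agent.T1B.Union81

variable (p : ℕ) [hp : Fact p.Prime]

section DVR

variable (E : IntermediateField ℚ_[p] (Kbar p)) [FiniteDimensional ℚ_[p] E]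

/-- `𝒪_E` is a domain (a subring of a field). -/
theorem isDomain_intSubring : IsDomain (intSubring p E) := inferInstance

/-- `𝒪_E` is a discrete valuation ring. -/
theorem isDVR_intSubring : IsDiscreteValuationRing (intSubring p E) :=
  IsDiscreteValuationRing.RingEquivClass.isDiscreteValuationRing (intEquiv p E).symm

/-- `ℤ_p → 𝒪_E` is a local homomorphism. -/
theorem isLocalHom_zpToSub : IsLocalHom (zpToSub p E) := by
  refine ⟨fun x hx => ?_⟩
  obtain ⟨u, hu⟩ := hx
  -- the norm of a unit of `𝒪_E` is one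
  have h1 : ‖((u : intSubring p E) : Kbar p)‖ = 1 := by
    have ha : ‖((u : intSubring p E) : Kbar p)‖ ≤ 1 := (u : intSubring p E).2.2
    have hb : ‖(((u⁻¹ : (intSubring p E)ˣ) : intSubring p E) : Kbar p)‖ ≤ 1 :=
      ((u⁻¹ : (intSubring p E)ˣ) : intSubring p E).2.2
    have hmul : ((u : intSubring p E) : Kbar p) *
        (((u⁻¹ : (intSubring p E)ˣ) : intSubring p E) : Kbar p) = 1 := by
      exact congrArg Subtype.val u.mul_inv
    have hn := congrArg norm hmul
    rw [norm_mul, norm_one] at hn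
    have hnn := norm_nonneg (((u : intSubring p E) : Kbar p))
    nlinarith [norm_nonneg ((((u⁻¹ : (intSubring p E)ˣ) : intSubring p E) : Kbar p))]
  rw [hu, coe_zpToSub, PadicAlgCl.norm_extends] at h1
  exact (PadicInt.isUnit_iff).2 h1

/-- `𝒪_E` is `𝔪`-adically complete. -/
theorem isAdicComplete_intSubring :
    letI := isLocalRing p E
    IsAdicComplete (IsLocalRing.maximalIdeal (intSubring p E)) (intSubring p E) := by
  letI := isLocalRing p E
  letI := algZpSub p E
  haveI := moduleFinite_intSubring p E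
  haveI : IsLocalHom (algebraMap ℤ_[p] (intSubring p E)) := isLocalHom_zpToSub p E
  exact IsLocalRing.isAdicComplete_of_module_finite (𝒪 := ℤ_[p])

end DVR

section Tower

variable {E L : IntermediateField ℚ_[p] (Kbar p)} [FiniteDimensional ℚ_[p] E]
  [FiniteDimensional ℚ_[p] L]

/-- A non-unit of `𝒪_E` has norm `< 1`. -/
theorem norm_lt_one_of_not_isUnit {x : intSubring p E} (hx : ¬ IsUnit x) :
    ‖(x : Kbar p)‖ < 1 := by
  by_contra h
  have h1 : ‖(x : Kbar p)‖ = 1 := le_antisymm x.2.2 (not_lt.1 h)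
  have hx0 : (x : Kbar p) ≠ 0 := by
    intro h0
    rw [h0, norm_zero] at h1
    exact zero_ne_one h1
  apply hx
  refine ⟨⟨x, ⟨(x : Kbar p)⁻¹, E.inv_mem x.2.1, by rw [norm_inv, h1, inv_one]⟩, ?_, ?_⟩, rfl⟩
  · exact Subtype.ext (mul_inv_cancel₀ hx0)
  · exact Subtype.ext (inv_mul_cancel₀ hx0)

/-- A unit of `𝒪_E` has norm `1`. -/
theorem norm_eq_one_of_isUnit {x : intSubring p E} (hx : IsUnit x) : ‖(x : Kbar p)‖ = 1 := by
  obtain ⟨u, rfl⟩ := hx
  have ha : ‖((u : intSubring p E) : Kbar p)‖ ≤ 1 := (u : intSubring p E).2.2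
  have hb : ‖(((u⁻¹ : (intSubring p E)ˣ) : intSubring p E) : Kbar p)‖ ≤ 1 :=
    ((u⁻¹ : (intSubring p E)ˣ) : intSubring p E).2.2
  have hmul : ((u : intSubring p E) : Kbar p) *
      (((u⁻¹ : (intSubring p E)ˣ) : intSubring p E) : Kbar p) = 1 := by
    exact congrArg Subtype.val u.mul_inv
  have hn := congrArg norm hmul
  rw [norm_mul, norm_one] at hn
  nlinarith [norm_nonneg (((u : intSubring p E) : Kbar p)),
    norm_nonneg ((((u⁻¹ : (intSubring p E)ˣ) : intSubring p E) : Kbar p))]

/-- `x ∈ 𝒪_E` is a unit iff its norm is one. -/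
theorem isUnit_iff_norm_eq_one {x : intSubring p E} : IsUnit x ↔ ‖(x : Kbar p)‖ = 1 :=
  ⟨norm_eq_one_of_isUnit p, fun h => by
    by_contra hx
    exact absurd h (ne_of_lt (norm_lt_one_of_not_isUnit p hx))⟩

/-- The maximal ideal of `𝒪_E` is the open unit ball. -/
theorem mem_maximalIdeal_iff {x : intSubring p E} :
    letI := isLocalRing p E
    x ∈ IsLocalRing.maximalIdeal (intSubring p E) ↔ ‖(x : Kbar p)‖ < 1 := by
  letI := isLocalRing p E
  rw [IsLocalRing.mem_maximalIdeal, mem_nonunits_iff, isUnit_iff_norm_eq_one]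
  exact ⟨fun h => lt_of_le_of_ne x.2.2 h, fun h => ne_of_lt h⟩

/-- The inclusion `𝒪_E → 𝒪_L` is a local homomorphism. -/
theorem isLocalHom_incl (h : E ≤ L) : IsLocalHom (incl p h) := by
  refine ⟨fun x hx => ?_⟩
  rw [isUnit_iff_norm_eq_one] at hx ⊢
  exact hx

end Tower

end Fermat.Agent.T1B.Union81
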