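/-
Fermat/Agent/T1B/Union81/Abstract.lean  (helper81) -- T1B, sub-cell TORIC50, brick TORIC-UNION,
abstract part (Mathlib only).

A directed family of LEVELS `L` (finite Galois extensions of the base inside `ℚ̄_p`), at each level a
homomorphism `tp L : T L →* Jl L` (the toric points `(1 + 𝔪_L)^r → J̃¹(O_L)`), embeddings
`e L : T L →* (E → U)` (`U = 1 + 𝔪_{ℚ̄_p}`) whose images exhaust `E → U`, and homomorphisms
`i L : Jl L →* P` (`P = Pic X_{ℚ̄_p}`), everything compatible with enlarging the level.  Then there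
is ONE homomorphism `ιT : (E → U) →* P` with `ιT (e L w) = i L (tp L w)`; it is equivariant if all
data are; its image lies in any subgroup containing the images of the `i L`; and the level-wise
description of the `p`-torsion of the formal kernels gives the global one.
-/
import Mathlib

set_option autoImplicit false

namespace Fermat.Agent.T1B.Union81

universe uΛ uT uJ uU uE uP uG

set_option linter.checkUnivs false in
/-- **The data of the union step.**  `compat` is the only compatibility needed: if `w` at level `L`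
and `w'` at a larger level `L'` have the same image in `E → U`, their toric points have the same
image in `P`. -/
structure UnionData (Λ : Type uΛ) [Preorder Λ] (U : Type uU) [CommGroup U] (E : Type uE)
    (P : Type uP) [CommGroup P] where
  T : Λ → Type uT
  Jl : Λ → Type uJ
  [instT : ∀ L, CommGroup (T L)]
  [instJ : ∀ L, CommGroup (Jl L)]
  tp : ∀ L, T L →* Jl L
  e : ∀ L, T L →* (E → U)
  i : ∀ L, Jl L →* P
  /-- every family of one-units lives at some level -/
  e_surj : ∀ z : E → U, ∃ (L : Λ) (w : T L), e L w = z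
  /-- elements can be moved to a larger level -/
  lift : ∀ {L L' : Λ}, L ≤ L' → ∀ w : T L, ∃ w' : T L', e L' w' = e L w
  compat : ∀ {L L' : Λ}, L ≤ L' → ∀ (w : T L) (w' : T L'), e L' w' = e L w →
    i L' (tp L' w') = i L (tp L w)

attribute [instance] UnionData.instT UnionData.instJ

namespace UnionData

variable {Λ : Type uΛ} [Preorder Λ] [IsDirected Λ (· ≤ ·)] {U : Type uU} [CommGroup U]
  {E : Type uE} {P : Type uP} [CommGroup P] (X : UnionData.{uΛ, uT, uJ, uU, uE, uP} Λ U E P)

/-- The toric map on the union, as a function. -/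
noncomputable def ιFun (z : E → U) : P :=
  X.i (X.e_surj z).choose (X.tp _ (X.e_surj z).choose_spec.choose)

/-- **Independence of the level.** -/
theorem ιFun_eq (L : Λ) (w : X.T L) : X.ιFun (X.e L w) = X.i L (X.tp L w) := by
  set L0 := (X.e_surj (X.e L w)).choose with hL0
  set w0 := (X.e_surj (X.e L w)).choose_spec.choose with hw0
  have h0 : X.e L0 w0 = X.e L w := (X.e_surj (X.e L w)).choose_spec.choose_spec
  obtain ⟨L1, h01, h1⟩ := exists_ge_ge L0 L
  obtain ⟨w1, hw1⟩ := X.lift h1 w
  show X.i L0 (X.tp L0 w0) = _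
  rw [← X.compat h1 w w1 hw1, ← X.compat h01 w0 w1 (hw1.trans h0.symm)]

/-- Two families at possibly different levels can be moved to a common level. -/
theorem exists_common (a b : E → U) :
    ∃ (L : Λ) (wa wb : X.T L), X.e L wa = a ∧ X.e L wb = b := by
  obtain ⟨La, wa, ha⟩ := X.e_surj a
  obtain ⟨Lb, wb, hb⟩ := X.e_surj b
  obtain ⟨L, hLa, hLb⟩ := exists_ge_ge La Lb
  obtain ⟨wa', hwa'⟩ := X.lift hLa wa
  obtain ⟨wb', hwb'⟩ := X.lift hLb wb
  exact ⟨L, wa', wb', hwa'.trans ha, hwb'.trans hb⟩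

/-- **The toric map on the union** `ιT : (E → U) →* P`. -/
noncomputable def ιT : (E → U) →* P where
  toFun := X.ιFun
  map_one' := by
    obtain ⟨L, w, hw⟩ := X.e_surj (1 : E → U)
    have h1 : X.e L (1 : X.T L) = 1 := map_one _
    rw [← h1, X.ιFun_eq, map_one, map_one]
  map_mul' a b := by
    obtain ⟨L, wa, wb, rfl, rfl⟩ := X.exists_common a b
    rw [← map_mul, X.ιFun_eq, X.ιFun_eq, X.ιFun_eq, map_mul, map_mul]

@[simp] theorem ιT_e (L : Λ) (w : X.T L) : X.ιT (X.e L w) = X.i L (X.tp L w) := X.ιFun_eq L w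

/-- The image of `ιT` lies in every subgroup containing the images of the `i L`. -/
theorem ιT_mem (J1 : Subgroup P) (h : ∀ (L : Λ) (y : X.Jl L), X.i L y ∈ J1) (z : E → U) :
    X.ιT z ∈ J1 := by
  obtain ⟨L, w, rfl⟩ := X.e_surj z
  rw [X.ιT_e]
  exact h L _

/-- **Equivariance**: if a group `G` acts on everything and `tp`, `e`, `i` are equivariant, so is
`ιT`. -/
theorem ιT_smul {G : Type uG} [Group G] [MulDistribMulAction G U] [MulDistribMulAction G P]
    [∀ L, MulDistribMulAction G (X.T L)] [∀ L, MulDistribMulAction G (X.Jl L)]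
    (tp_smul : ∀ (L : Λ) (s : G) (w : X.T L), X.tp L (s • w) = s • X.tp L w)
    (e_smul : ∀ (L : Λ) (s : G) (w : X.T L), X.e L (s • w) = fun k => s • X.e L w k)
    (i_smul : ∀ (L : Λ) (s : G) (y : X.Jl L), X.i L (s • y) = s • X.i L y)
    (s : G) (z : E → U) : X.ιT (fun k => s • z k) = s • X.ιT z := by
  obtain ⟨L, w, rfl⟩ := X.e_surj z
  rw [← e_smul, X.ιT_e, X.ιT_e, tp_smul, i_smul]

/-- Equivariance for ONE operator `s` on `U` and `P`, given level-wise operators. -/
theorem ιT_equivariant (sU : U → U) (sP : P → P) (sT : ∀ L, X.T L → X.T L)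
    (sJ : ∀ L, X.Jl L → X.Jl L)
    (tp_s : ∀ (L : Λ) (w : X.T L), X.tp L (sT L w) = sJ L (X.tp L w))
    (e_s : ∀ (L : Λ) (w : X.T L), X.e L (sT L w) = fun k => sU (X.e L w k))
    (i_s : ∀ (L : Λ) (y : X.Jl L), X.i L (sJ L y) = sP (X.i L y))
    (z : E → U) : X.ιT (fun k => sU (z k)) = sP (X.ιT z) := by
  obtain ⟨L, w, rfl⟩ := X.e_surj z
  rw [← e_s, X.ιT_e, X.ιT_e, tp_s, i_s]

/-- **The toric description on the union.**  `K L` are the formal kernels; at each level the
`p`-torsion of `K L` consists of toric points of `p`-torsion parameters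
(`TowerInput.exists_toricPoint_of_pow_eq_one`).  If `a ∈ P` is of `p`-torsion and is the image of a
class of some formal kernel (with `i L` injective), then `a = ιT z` with `z ^ p = 1`. -/
theorem exists_ιT_eq (p : ℕ) (K : ∀ L, Subgroup (X.Jl L))
    (htor : ∀ (L : Λ) (y : X.Jl L), y ∈ K L → y ^ p = 1 → ∃ w : X.T L, w ^ p = 1 ∧ X.tp L w = y)
    (L : Λ) (hinj : Function.Injective (X.i L)) (y : X.Jl L) (hy : y ∈ K L)
    (hp : X.i L y ^ p = 1) : ∃ z : E → U, (∀ k, z k ^ p = 1) ∧ X.ιT z = X.i L y := by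
  have hyp : y ^ p = 1 := hinj (by rw [map_pow, hp, map_one])
  obtain ⟨w, hw, rfl⟩ := htor L y hy hyp
  refine ⟨X.e L w, fun k => ?_, X.ιT_e L w⟩
  have := congrArg (fun f : E → U => f k) (map_pow (X.e L) w p)
  simp only [Pi.pow_apply] at this
  rw [← this, hw, map_one]
  rfl

end UnionData

/-! ### A constructor from transition maps -/

section OfTransition

variable {Λ : Type uΛ} [Preorder Λ] {U : Type uU} [CommGroup U] {E : Type uE} {P : Type uP}
  [CommGroup P]

/-- `UnionData` from transition maps `tT : T L →* T L'`, `tJ : Jl L →* Jl L'` (`L ≤ L'`) with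
`e L' ∘ tT = e L`, `i L' ∘ tJ = i L`, naturality of the toric points `tp L' ∘ tT = tJ ∘ tp L` and
injectivity of the `e L`. -/
def UnionData.ofTransition (T : Λ → Type uT) (Jl : Λ → Type uJ) [∀ L, CommGroup (T L)]
    [∀ L, CommGroup (Jl L)] (tp : ∀ L, T L →* Jl L) (e : ∀ L, T L →* (E → U))
    (i : ∀ L, Jl L →* P) (e_surj : ∀ z : E → U, ∃ (L : Λ) (w : T L), e L w = z)
    (e_inj : ∀ L, Function.Injective (e L))
    (tT : ∀ {L L' : Λ}, L ≤ L' → T L → T L') (tJ : ∀ {L L' : Λ}, L ≤ L' → Jl L → Jl L')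
    (e_tT : ∀ {L L' : Λ} (h : L ≤ L') (w : T L), e L' (tT h w) = e L w)
    (i_tJ : ∀ {L L' : Λ} (h : L ≤ L') (y : Jl L), i L' (tJ h y) = i L y)
    (tp_nat : ∀ {L L' : Λ} (h : L ≤ L') (w : T L), tp L' (tT h w) = tJ h (tp L w)) :
    UnionData.{uΛ, uT, uJ, uU, uE, uP} Λ U E P where
  T := T
  Jl := Jl
  tp := tp
  e := e
  i := i
  e_surj := e_surj
  lift := fun h w => ⟨tT h w, e_tT h w⟩
  compat := fun {L L'} h w w' hw => by
    have : w' = tT h w := e_inj L' (hw.trans (e_tT h w).symm)
    rw [this, tp_nat, i_tJ]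

end OfTransition

end Fermat.Agent.T1B.Union81
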