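/-
Fermat/Agent/T1B/Union81/Family.lean  (helper81) -- T1B, sub-cell TORIC50, brick TORIC-UNION,
stage 2a: **the union step for a directed family of complete DVRs inside one big `W`-algebra `Ω`**
(in the application `Ω = ℚ̄_p`, the levels are the finite extensions `E ⊇ K_loc` of `ℚ_p` in `ℚ̄_p`,
`O L = 𝒪_E`).

`LevelFamily W Ω Λ` : DVRs `O L` over `W`, injective `W`-algebra maps `toΩ L : O L → Ω`, local
transition maps `tr : O L → O L'` (`L ≤ L'`) over `Ω`.  `UnitsFamily 𝓛 U` : a subgroup `U ≤ Ωˣ` which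
is the union of the images of the one-units `1 + 𝔪_L`.

Given tower inputs `I L` at every level whose toric maps come from ONE natural family
(`ToricGal65.TorFam`), `unionData` is the `UnionData` of `Abstract.lean` with
`P = Pic X_Ω`, `T L = (1 + 𝔪_L)^r`, `Jl L = J̃¹(O L)`, `tp L = (I L).toricPoint`; hence

* `ιΩ : (Fin r → U) →* PicX c0 Ω`, `ιΩ_e`, `ιΩ_mem`;
* `ιΩ_semi` : equivariance for an automorphism `τ` of `Ω` moving the levels;
* `exists_ιΩ_eq` : the toric description of the `p`-torsion of the formal kernels.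
-/
import Mathlib
import Fermat.Agent.T1B.Union81.Abstract
import Fermat.Agent.T1B.ToricGal65.ToricNat

set_option autoImplicit false
set_option linter.unusedSectionVars false
set_option linter.style.haveILetI false

open TensorProduct

noncomputable section

namespace Fermat.Agent.T1B.Union81

open Fermat.Agent.Jac Fermat.Agent.Jac.BaseChange75
open Fermat.Agent.T1.RedIface75 Fermat.Agent.T1.CechFormal70
open Fermat.Agent.T1B.Toric11 Fermat.Agent.T1B.Toric50.Assemble Fermat.Agent.T1B.ToricGal65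
open scoped Fermat.Agent.Jac.BaseChange75

universe u v uG

/-! ### A more flexible equivariance lemma for `UnionData` -/

section AbstractExtra

variable {Λ : Type*} [Preorder Λ] [IsDirected Λ (· ≤ ·)] {U : Type*} [CommGroup U]
  {E : Type*} {P : Type*} [CommGroup P] (X : UnionData Λ U E P)

/-- Equivariance for one operator which MOVES the levels (`σ : Λ → Λ`). -/
theorem UnionData.ιT_equivariant' (sU : U → U) (sP : P → P) (σ : Λ → Λ)
    (sT : ∀ L, X.T L → X.T (σ L)) (sJ : ∀ L, X.Jl L → X.Jl (σ L))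
    (tp_s : ∀ (L : Λ) (w : X.T L), X.tp (σ L) (sT L w) = sJ L (X.tp L w))
    (e_s : ∀ (L : Λ) (w : X.T L), X.e (σ L) (sT L w) = fun k => sU (X.e L w k))
    (i_s : ∀ (L : Λ) (y : X.Jl L), X.i (σ L) (sJ L y) = sP (X.i L y))
    (z : E → U) : X.ιT (fun k => sU (z k)) = sP (X.ιT z) := by
  obtain ⟨L, w, rfl⟩ := X.e_surj z
  rw [← e_s, X.ιT_e, X.ιT_e, tp_s, i_s]

end AbstractExtra

/-! ### Families of levels -/

/-- A family of DVRs over `W` inside a `W`-algebra `Ω`, indexed by a preorder. -/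
structure LevelFamily (W : Type u) [CommRing W] (Ω : Type u) [CommRing Ω] [Algebra W Ω]
    (Λ : Type v) [Preorder Λ] where
  O : Λ → Type u
  [ring : ∀ L, CommRing (O L)]
  [dom : ∀ L, IsDomain (O L)]
  [dvr : ∀ L, IsDiscreteValuationRing (O L)]
  [alg : ∀ L, Algebra W (O L)]
  toΩ : ∀ L, O L →ₐ[W] Ω
  toΩ_inj : ∀ L, Function.Injective (toΩ L)
  tr : ∀ {L L' : Λ}, L ≤ L' → (O L →ₐ[W] O L')
  tr_local : ∀ {L L' : Λ} (h : L ≤ L'), IsLocalHom ((tr h : O L →ₐ[W] O L') : O L →+* O L')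
  toΩ_tr : ∀ {L L' : Λ} (h : L ≤ L') (x : O L), toΩ L' (tr h x) = toΩ L x

attribute [instance] LevelFamily.ring LevelFamily.dom LevelFamily.dvr LevelFamily.alg

variable {W : Type u} [CommRing W] {Ω : Type u} [CommRing Ω] [Algebra W Ω]
  {Λ : Type v} [Preorder Λ]

/-- The image in `Ωˣ` of a one-unit of `O L`. -/
def LevelFamily.unitΩ (𝓛 : LevelFamily W Ω Λ) (L : Λ)
    (x : unitsOne (IsLocalRing.maximalIdeal (𝓛.O L))) : Ωˣ :=
  Units.map ((𝓛.toΩ L : 𝓛.O L →+* Ω) : 𝓛.O L →* Ω) (x : (𝓛.O L)ˣ)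

@[simp] theorem LevelFamily.coe_unitΩ (𝓛 : LevelFamily W Ω Λ) (L : Λ)
    (x : unitsOne (IsLocalRing.maximalIdeal (𝓛.O L))) :
    ((𝓛.unitΩ L x : Ωˣ) : Ω) = 𝓛.toΩ L (((x : (𝓛.O L)ˣ) : 𝓛.O L)) := rfl

theorem LevelFamily.unitΩ_injective (𝓛 : LevelFamily W Ω Λ) (L : Λ) :
    Function.Injective (𝓛.unitΩ L) := by
  intro x y h
  apply Subtype.ext
  apply Units.ext
  apply 𝓛.toΩ_inj L
  have := congrArg (fun u : Ωˣ => (u : Ω)) h
  simpa using this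

theorem LevelFamily.unitΩ_tr (𝓛 : LevelFamily W Ω Λ) {L L' : Λ} (h : L ≤ L')
    (x : unitsOne (IsLocalRing.maximalIdeal (𝓛.O L))) :
    𝓛.unitΩ L' (unitsOneMap ((𝓛.tr h : 𝓛.O L →ₐ[W] 𝓛.O L') : 𝓛.O L →+* 𝓛.O L')
      (maximalIdeal_le_comap_algHom _ (𝓛.tr_local h)) x) = 𝓛.unitΩ L x := by
  apply Units.ext
  simp [𝓛.toΩ_tr h]

/-- A subgroup `U ≤ Ωˣ` which is the union of the images of the one-units of the levels. -/
structure UnitsFamily (𝓛 : LevelFamily W Ω Λ) (U : Subgroup Ωˣ) : Prop where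
  mem : ∀ (L : Λ) (x : unitsOne (IsLocalRing.maximalIdeal (𝓛.O L))), 𝓛.unitΩ L x ∈ U
  exists_level : ∀ u ∈ U, ∃ (L : Λ) (x : unitsOne (IsLocalRing.maximalIdeal (𝓛.O L))),
    𝓛.unitΩ L x = u

/-! ### The union data -/

section Union

variable {B0 B1 B01 : Type u} [CommRing B0] [CommRing B1] [CommRing B01]
  [Algebra W B0] [Algebra W B1] [Algebra W B01] [Algebra B0 B01] [Algebra B1 B01]
  [IsScalarTower W B0 B01] [IsScalarTower W B1 B01]
  {c0 : TwoChart W B0 B1 B01} {g : ℕ} {D : CechData W B0 B1 B01 g}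
  {hρ0 : ∀ x, D.ρ0 x = algebraMap B0 B01 x} {hρ1 : ∀ x, D.ρ1 x = algebraMap B1 B01 x}
  [IsDirected Λ (· ≤ ·)] [Nonempty Λ]
  (𝓛 : LevelFamily W Ω Λ) {U : Subgroup Ωˣ} (hU : UnitsFamily 𝓛 U)
  {G : Λ → Type uG} [∀ L, Group (G L)] {p r : ℕ} {Bt : Λ → ℕ → Type u}
  [∀ L n, CommGroup (Bt L n)]
  [∀ L, MulDistribMulAction (G L) (J1 c0 (𝓛.O L))]
  [∀ L n, MulDistribMulAction (G L) (Jn D (IsLocalRing.maximalIdeal (𝓛.O L)) n)]
  [∀ L n, MulDistribMulAction (G L) (Tn r (IsLocalRing.maximalIdeal (𝓛.O L)) n)]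
  [∀ L, MulDistribMulAction (G L) (Tinf r (IsLocalRing.maximalIdeal (𝓛.O L)))]
  (I : ∀ L, TowerInput c0 D hρ0 hρ1 (𝓛.O L) (G L) p r (Bt L))
  {good : ∀ (O : Type u) [CommRing O] [IsDomain O] [IsDiscreteValuationRing O] [Algebra W O], Prop}
  (F : TorFam r D good) (hO : ∀ L, good (𝓛.O L))
  (hI : ∀ L n, (I L).ι n = F.ι (𝓛.O L) (hO L) n)

/-- The embedding `(1 + 𝔪_L)^r → (Fin r → U)`. -/
def eΩ (L : Λ) : Tinf r (IsLocalRing.maximalIdeal (𝓛.O L)) →* (Fin r → U) where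
  toFun w := fun k => ⟨𝓛.unitΩ L (w k), hU.mem L (w k)⟩
  map_one' := by
    funext k
    apply Subtype.ext
    apply Units.ext
    simp
  map_mul' a b := by
    funext k
    apply Subtype.ext
    apply Units.ext
    simp

theorem eΩ_apply (L : Λ) (w : Tinf r (IsLocalRing.maximalIdeal (𝓛.O L))) (k : Fin r) :
    ((eΩ 𝓛 hU (r := r) L w k : U) : Ωˣ) = 𝓛.unitΩ L (w k) := rfl

theorem eΩ_injective (L : Λ) : Function.Injective (eΩ 𝓛 hU (r := r) L) := by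
  intro w w' h
  funext k
  apply 𝓛.unitΩ_injective L
  have := congrArg (fun z : Fin r → U => ((z k : U) : Ωˣ)) h
  exact this

theorem eΩ_tinfMap {L L' : Λ} (h : L ≤ L')
    (w : Tinf r (IsLocalRing.maximalIdeal (𝓛.O L))) :
    eΩ 𝓛 hU L' (tinfMap r (𝓛.tr h) (𝓛.tr_local h) w) = eΩ 𝓛 hU L w := by
  funext k
  apply Subtype.ext
  exact 𝓛.unitΩ_tr h (w k)

/-- Every family of elements of `U` lives at one level. -/
theorem eΩ_surj (z : Fin r → U) :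
    ∃ (L : Λ) (w : Tinf r (IsLocalRing.maximalIdeal (𝓛.O L))), eΩ 𝓛 hU L w = z := by
  classical
  have h1 : ∀ k, ∃ (L : Λ) (x : unitsOne (IsLocalRing.maximalIdeal (𝓛.O L))),
      𝓛.unitΩ L x = (z k : Ωˣ) := fun k => hU.exists_level _ (z k).2
  choose Lk xk hxk using h1
  obtain ⟨L, hL⟩ := Finset.exists_le (Finset.univ.image Lk)
  have hLk : ∀ k, Lk k ≤ L := fun k => hL _ (Finset.mem_image_of_mem _ (Finset.mem_univ k))
  refine ⟨L, fun k => unitsOneMap ((𝓛.tr (hLk k) : 𝓛.O (Lk k) →ₐ[W] 𝓛.O L) : _ →+* _)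
    (maximalIdeal_le_comap_algHom _ (𝓛.tr_local (hLk k))) (xk k), ?_⟩
  funext k
  apply Subtype.ext
  rw [eΩ_apply, 𝓛.unitΩ_tr (hLk k) (xk k), hxk k]

/-- The map `J̃¹(O L) → Pic X_Ω`. -/
def iΩ (L : Λ) : J1 c0 (𝓛.O L) →* PicX c0 Ω :=
  (mapAlg c0 (𝓛.toΩ L)).comp (J1 c0 (𝓛.O L)).subtype

theorem toΩ_comp_tr {L L' : Λ} (h : L ≤ L') : (𝓛.toΩ L').comp (𝓛.tr h) = 𝓛.toΩ L :=
  AlgHom.ext fun x => 𝓛.toΩ_tr h x

theorem iΩ_j1MapAlg {L L' : Λ} (h : L ≤ L') (y : J1 c0 (𝓛.O L)) :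
    iΩ 𝓛 L' (j1MapAlg c0 (𝓛.tr h) (𝓛.tr_local h) y) = iΩ (c0 := c0) 𝓛 L y := by
  show mapAlg c0 (𝓛.toΩ L') (mapAlg c0 (𝓛.tr h) (y : PicX c0 (𝓛.O L))) =
    mapAlg c0 (𝓛.toΩ L) (y : PicX c0 (𝓛.O L))
  rw [← mapAlg_comp_apply, toΩ_comp_tr]

include hI in
/-- **The union data** of the family of tower inputs. -/
def unionData : UnionData Λ U (Fin r) (PicX c0 Ω) :=
  UnionData.ofTransition (fun L => Tinf r (IsLocalRing.maximalIdeal (𝓛.O L)))
    (fun L => J1 c0 (𝓛.O L)) (fun L => (I L).toricPoint) (eΩ 𝓛 hU) (iΩ 𝓛)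
    (eΩ_surj 𝓛 hU) (eΩ_injective 𝓛 hU)
    (fun h => tinfMap r (𝓛.tr h) (𝓛.tr_local h))
    (fun h => j1MapAlg c0 (𝓛.tr h) (𝓛.tr_local h))
    (fun h w => eΩ_tinfMap 𝓛 hU h w) (fun h y => iΩ_j1MapAlg 𝓛 h y)
    (fun {L L'} h w => (toricPoint_natural (I L) (I L') F (hO L) (hO L') (hI L) (hI L')
      (𝓛.tr h) (𝓛.tr_local h) w).symm)

/-- **The toric map on the union**, `(Fin r → U) →* Pic X_Ω`. -/
def ιΩ : (Fin r → U) →* PicX c0 Ω := (unionData 𝓛 hU I F hO hI).ιT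

/-- `ιΩ` on a family of one-units of level `L` is the image of the toric point of level `L`. -/
theorem ιΩ_e (L : Λ) (w : Tinf r (IsLocalRing.maximalIdeal (𝓛.O L))) :
    ιΩ 𝓛 hU I F hO hI (eΩ 𝓛 hU L w) =
      mapAlg c0 (𝓛.toΩ L) (((I L).toricPoint w : J1 c0 (𝓛.O L)) : PicX c0 (𝓛.O L)) :=
  (unionData 𝓛 hU I F hO hI).ιT_e L w

/-- The image of `ιΩ` lies in any subgroup containing the images of all `J̃¹(O L)`. -/
theorem ιΩ_mem (J1Ω : Subgroup (PicX c0 Ω))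
    (h : ∀ (L : Λ) (y : J1 c0 (𝓛.O L)), mapAlg c0 (𝓛.toΩ L) (y : PicX c0 (𝓛.O L)) ∈ J1Ω)
    (z : Fin r → U) : ιΩ 𝓛 hU I F hO hI z ∈ J1Ω :=
  (unionData 𝓛 hU I F hO hI).ιT_mem J1Ω h z

/-- **Equivariance** for a `W`-algebra endomorphism `τ` of `Ω` which maps the level `L` to the level
`σ L` by local homomorphisms `τL L : O L → O (σ L)` and preserves `U`. -/
theorem ιΩ_semi (τ : Ω →ₐ[W] Ω) (σ : Λ → Λ) (τL : ∀ L, 𝓛.O L →ₐ[W] 𝓛.O (σ L))
    (τL_local : ∀ L, IsLocalHom ((τL L : 𝓛.O L →ₐ[W] 𝓛.O (σ L)) : 𝓛.O L →+* 𝓛.O (σ L)))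
    (hτ : ∀ L x, 𝓛.toΩ (σ L) (τL L x) = τ (𝓛.toΩ L x))
    (τU : U → U) (hτU : ∀ u : U, ((τU u : U) : Ωˣ) = Units.map ((τ : Ω →+* Ω) : Ω →* Ω) u)
    (z : Fin r → U) :
    ιΩ 𝓛 hU I F hO hI (fun k => τU (z k)) = mapAlg c0 τ (ιΩ 𝓛 hU I F hO hI z) := by
  refine (unionData 𝓛 hU I F hO hI).ιT_equivariant' τU (mapAlg c0 τ) σ
    (fun L => tinfMap r (τL L) (τL_local L)) (fun L => j1MapAlg c0 (τL L) (τL_local L))
    (fun L w => (toricPoint_natural (I L) (I (σ L)) F (hO L) (hO (σ L)) (hI L) (hI (σ L))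
      (τL L) (τL_local L) w).symm)
    (fun L (w : Tinf r (IsLocalRing.maximalIdeal (𝓛.O L))) => ?_)
    (fun L (y : J1 c0 (𝓛.O L)) => ?_) z
  · funext k
    apply Subtype.ext
    apply Units.ext
    rw [hτU]
    show 𝓛.toΩ (σ L) (τL L _) = τ (𝓛.toΩ L _)
    exact hτ L _
  · show mapAlg c0 (𝓛.toΩ (σ L)) (mapAlg c0 (τL L) (y : PicX c0 (𝓛.O L))) =
      mapAlg c0 τ (mapAlg c0 (𝓛.toΩ L) (y : PicX c0 (𝓛.O L)))
    rw [← mapAlg_comp_apply, ← mapAlg_comp_apply]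
    congr 2
    exact AlgHom.ext fun x => hτ L x

/-- **The toric description on the union**: a `p`-torsion class of `Pic X_Ω` which is the image of
a class `y ∈ J̃¹(O L)` of the formal kernel (`∀ n, β n (uJ n y) = 1`) at a level where
`J̃¹(O L) → Pic X_Ω` is injective, is `ιΩ z` for a family `z` of `p`-th roots of unity. -/
theorem exists_ιΩ_eq (L : Λ) (hinj : Function.Injective (iΩ (c0 := c0) 𝓛 L))
    (y : J1 c0 (𝓛.O L)) (hy : ∀ n, (I L).β n (uJ c0 D hρ0 hρ1 (𝓛.O L) n y) = 1)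
    (hp : (mapAlg c0 (𝓛.toΩ L) (y : PicX c0 (𝓛.O L))) ^ p = 1) :
    ∃ z : Fin r → U, (∀ k, z k ^ p = 1) ∧
      ιΩ 𝓛 hU I F hO hI z = mapAlg c0 (𝓛.toΩ L) (y : PicX c0 (𝓛.O L)) :=
  (unionData 𝓛 hU I F hO hI).exists_ιT_eq p (fun L => (I L).package2.K)
    (fun L y hy hyp => (I L).package2.exists_toricPoint_of_pow_eq_one y hy hyp)
    L hinj y ((I L).mem_K.2 hy) hp

end Union

end Fermat.Agent.T1B.Union81
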