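/-
Fermat/Agent/T1B/Union81/LevelInput.lean  (helper81) -- T1B, sub-cell TORIC50, brick TORIC-UNION,
the FAMILY WRAPPER: **the tower inputs `I E` at every normal level `E : NLevel p K`**, on the
vocabulary of `GalInput65/{NLev,TopAct}.lean` (helper65): `O_E = (levelFamilyN p K).O E`,
`ρ = rhoN hK E` (inertia acting on `O_E`), `χ s = Cyclo.chiNat p ↑s`, `hχ = rhoN_muP hK E`,
`hc = complete_levelN E` (`Union81.isAdicComplete_intSubring`), `hO = hO_levelN hπ E`.

* `actJ1N c0 hK`, `actJnN hK D`, `actTnN hK r`, `actTinfN hK r` : the four families of actions of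
  `↥(Ip p)` (reducible definitions: install them with `letI`), so that `GalInput65.ιTop`,
  `ιTop_mul`, `ιTop_smul`, `exists_ιTop_eq` apply to `levelInput …` with `G := fun _ => ↥(Ip p)`;
* `levelInput …  : ∀ E, TowerInput c0 D hρ0 hρ1 O_E ↥(Ip p) p r (fun n => Jn D' 𝔪_E n × Jn D' 𝔪_E n)`
  = `Toric98.ToricBase.towerInput_of_fibre` at `O_E` (level-wise hypotheses `β_ι E`, `hInj E`,
  `hfin0 E`, `hnzd E` in the literal shapes of `towerInput_of_fibre`);
* `levelInput_ι` (`= hI` of `ιTop` for `F := (toricFamily H N).toTorFam`), `levelInput_β`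
  (`= βn2 Sα Sβ`), both `rfl`;
* `ιTopN … := ιTop (levelInput …) …` with `ιTopN_mul`, `ιTopN_smul`, `ιTopN_mem_J1top`,
  `toricN_J1top` : the binders `ιT`, `ιT_mul`, `ιT_smul`, `ιT_mem`, `toric` of
  `Local66.Glue.localGeom_of_fields` (`E := Fin r`), by helper65's `GalInput65/TopAct` and helper50's
  `Toric50/UnionGlue`.
-/
import Mathlib
import Fermat.Agent.T1B.Union81.IntSubDVR
import Fermat.Agent.T1B.GalInput65.TopAct
import Fermat.Agent.T1B.Toric98.GlueNodeSys
import Fermat.Agent.T1B.ToricGal65.ToricNatFam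
import Fermat.Agent.T1B.Toric50.UnionGlue

set_option autoImplicit false
set_option linter.unusedSectionVars false
set_option linter.unusedVariables false
set_option linter.style.haveILetI false
set_option linter.overlappingInstances false
set_option synthInstance.maxHeartbeats 400000
set_option maxHeartbeats 1000000

open TensorProduct Polynomial

noncomputable section

namespace Fermat.Agent.T1B.Union81

open Fermat.Agent.Jac Fermat.Agent.Jac.BaseChange75
open Fermat.Agent.T1.RedIface75 Fermat.Agent.T1.CechFormal70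
open Fermat.Agent.T1B.Toric11 Fermat.Agent.T1B.Toric50 Fermat.Agent.T1B.Toric50.Assemble
open Fermat.Agent.T1B.ToricGal65 Fermat.Agent.T1B.Toric98 Fermat.Agent.T1B.Toric50.Wrap
open Fermat.Agent.T1B.Toric50.Master
open Fermat.Agent.TW.B5.Iface Fermat.Agent.T1.HubInst98 Fermat.Agent.T1.IntSub47
open Fermat.Agent.T1B.Local66.LocalBase Fermat.Agent.T1B.Local66.Union
open Fermat.Agent.T1B.GalInput65 Fermat.Agent.T1B.Plumb66
open Fermat.Agent.ES.P36.InertField27 (InertFixed)
open Fermat.Agent.RED.Interface4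
open Fermat.Agent.T1B.Bridge54.IpInst Fermat.Agent.T1B.Bridge54.IpUnion
open Fermat.Agent.T1B.Toric50.UnionFields Fermat.Agent.T1B.Toric50.UnionGlue
open Fermat.Agent.T1B.Local66.Objects
open scoped Fermat.Agent.Jac.BaseChange75

variable {p : ℕ} [Fact p.Prime] {K : IntermediateField ℚ Qbar}

attribute [local instance] algWKbar

/-! ### The level-wise completeness and `π ∈ 𝔪_E` -/

/-- `O_E` is complete. -/
theorem complete_levelN (E : NLevel p K) :
    IsAdicComplete (IsLocalRing.maximalIdeal ((levelFamilyN p K).O E)) ((levelFamilyN p K).O E) :=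
  @isAdicComplete_intSubring p _ E.E E.fin

/-- An element of `W` of norm `< 1` lies in the maximal ideal of every `O_E`. -/
theorem hO_levelN {π : Wb p K} (hπ : ‖iotaW p K π‖ < 1) (E : NLevel p K) :
    algebraMap (Wb p K) ((levelFamilyN p K).O E) π ∈
      IsLocalRing.maximalIdeal ((levelFamilyN p K).O E) :=
  (@Fermat.Agent.T1B.Union81.mem_maximalIdeal_iff p _ E.E E.fin _).2 hπ

/-- `‖ι π‖ < 1` from the valuation of the place. -/
theorem norm_iotaW_lt_one {π : Wb p K}
    (hπ : (padicPlace p).valuation (((π : ↥K) : Qbar)) < 1) : ‖iotaW p K π‖ < 1 :=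
  (Fermat.Agent.T1.LocModel46.valuation_lt_one_iff p).1 hπ

/-! ### The four families of actions of the inertia group -/

section Actions

variable {B0 B1 B01 : Type} [CommRing B0] [CommRing B1] [CommRing B01]
  [Algebra (Wb p K) B0] [Algebra (Wb p K) B1] [Algebra (Wb p K) B01]
  [Algebra B0 B01] [Algebra B1 B01] [IsScalarTower (Wb p K) B0 B01]
  [IsScalarTower (Wb p K) B1 B01]
  (c0 : TwoChart (Wb p K) B0 B1 B01) {g : ℕ} (D : CechData (Wb p K) B0 B1 B01 g) (r : ℕ)
  (hK : InertFixed (padicPlace p) K)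

/-- Inertia acting on `J̃¹(O_E)`, all levels (reducible: install it with `letI`). -/
@[reducible] def actJ1N : ∀ L : NLevel p K,
    MulDistribMulAction ↥(Inertia.Ip p) (J1 c0 ((levelFamilyN p K).O L)) :=
  fun L => j1Act c0 (rhoN hK L)

/-- Inertia acting on the formal groups `Ĵ(O_E/𝔪ⁿ)`, all levels. -/
@[reducible] def actJnN : ∀ (L : NLevel p K) (n : ℕ), MulDistribMulAction ↥(Inertia.Ip p)
    (Jn D (IsLocalRing.maximalIdeal ((levelFamilyN p K).O L)) n) :=
  fun L n => actJn (rhoN hK L) D n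

/-- Inertia acting on the truncated tori, all levels. -/
@[reducible] def actTnN : ∀ (L : NLevel p K) (n : ℕ), MulDistribMulAction ↥(Inertia.Ip p)
    (Tn r (IsLocalRing.maximalIdeal ((levelFamilyN p K).O L)) n) :=
  fun L n => actTn (rhoN hK L) r n

/-- Inertia acting on the tori `(1 + 𝔪_E)^r`, all levels. -/
@[reducible] def actTinfN : ∀ L : NLevel p K, MulDistribMulAction ↥(Inertia.Ip p)
    (Tinf r (IsLocalRing.maximalIdeal ((levelFamilyN p K).O L))) :=
  fun L => actTinf (rhoN hK L) r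

end Actions

/-! ### The tower inputs at all levels -/

section LevelInput

variable {B0 B1 B01 : Type} [CommRing B0] [CommRing B1] [CommRing B01]
  [Algebra (Wb p K) B0] [Algebra (Wb p K) B1] [Algebra (Wb p K) B01]
  {B0' B1' B01' : Type} [CommRing B0'] [CommRing B1'] [CommRing B01']
  [Algebra (Wb p K) B0'] [Algebra (Wb p K) B1'] [Algebra (Wb p K) B01']
  {g g' : ℕ} {D : CechData (Wb p K) B0 B1 B01 g} {D' : CechData (Wb p K) B0' B1' B01' g'}
  [Algebra B0 B01] [Algebra B1 B01] [IsScalarTower (Wb p K) B0 B01]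
  [IsScalarTower (Wb p K) B1 B01]
  (c0 : TwoChart (Wb p K) B0 B1 B01)
  (hρ0 : ∀ x, D.ρ0 x = algebraMap B0 B01 x) (hρ1 : ∀ x, D.ρ1 x = algebraMap B1 B01 x)
  {π : Wb p K} [hmax : (Ideal.span {π}).IsMaximal] [Algebra.FiniteType (Wb p K) B0]
  [Algebra.FiniteType (Wb p K) B1] [Algebra.FiniteType (Wb p K) B01]
  [IsNoetherianRing (Wb p K)]
  (H : ToricBase D π) {r : ℕ}
  {En : Type} {κ : Type} [Field κ] [Algebra (Wb p K) κ] [DecidableEq En]
  (FD : FibreDatum π D.ρ0 D.ρ1 En κ)
  (hsurj : Function.Surjective (algebraMap (Wb p K) κ))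
  (hker : RingHom.ker (algebraMap (Wb p K) κ) = Ideal.span {π})
  (hev : ∀ e, FD.ev e H.s01 = 0)
  (hinj : ∀ e e', RingHom.ker (FD.ev e) = RingHom.ker (FD.ev e') → e = e')
  (hP : FD.P = H.P) (hQ : FD.Q = H.Q)
  (satP : ∀ x : B01, H.s01 * x ∈ H.P → x ∈ H.P) (satQ : ∀ x : B01, H.s01 * x ∈ H.Q → x ∈ H.Q)
  (Sα Sβ : NormSys D D') (α β : B01' →ₗ[Wb p K] B01)
  (hα0 : ∀ a : B0', ∃ a0 : B0, α (D'.ρ0 a) = D.ρ0 a0)
  (hα1 : ∀ a : B1', ∃ a1 : B1, α (D'.ρ1 a) = D.ρ1 a1)
  (hβ0 : ∀ a : B0', ∃ a0 : B0, β (D'.ρ0 a) = D.ρ0 a0)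
  (hβ1 : ∀ a : B1', ∃ a1 : B1, β (D'.ρ1 a) = D.ρ1 a1)
  (hK2α : ∀ f : B01, α (Sα.trMap f) - f ∈ FD.P) (hK2β : ∀ f : B01, β (Sβ.trMap f) - f ∈ FD.Q)
  (node : Fin r → En) (hnode : Function.Injective node) (e0 : En)
  (he0 : ∀ k, node k ≠ e0) (hcov : ∀ e, e ≠ e0 → ∃ k, node k = e)
  (hK : InertFixed (padicPlace p) K) (hπ : ‖iotaW p K π‖ < 1)
  (β_ι : ∀ (E : NLevel p K) n (z : Tn r (IsLocalRing.maximalIdeal ((levelFamilyN p K).O E)) n),
    βn2 Sα Sβ (IsLocalRing.maximalIdeal ((levelFamilyN p K).O E)) n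
      (iota H (H.masterNodeSys FD hsurj hker hev hinj node hnode) ((levelFamilyN p K).O E)
        (hO_levelN hπ E) n z) = 1)
  (hInj : ∀ E : NLevel p K, CoordInjective c0 ((levelFamilyN p K).O E))
  (hfin0 : ∀ E : NLevel p K, Module.Finite ((levelFamilyN p K).O E)[X]
    (Module.AEval ((levelFamilyN p K).O E) ((levelFamilyN p K).O E ⊗[Wb p K] B0)
      (c0.baseChange ((levelFamilyN p K).O E)).t))
  (hnzd : ∀ (E : NLevel p K) (v : (levelFamilyN p K).O E ⊗[Wb p K] B01),
    v - 1 ∈ eI (IsLocalRing.maximalIdeal ((levelFamilyN p K).O E))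
      ((levelFamilyN p K).O E ⊗[Wb p K] B01) →
      v ∈ nonZeroDivisors ((levelFamilyN p K).O E ⊗[Wb p K] B01))

/-- **The tower inputs at all normal levels**: `Toric98.ToricBase.towerInput_of_fibre` at `O_E`
with the action `rhoN hK E` of the inertia group. -/
def levelInput (E : NLevel p K) :
    letI := actJ1N c0 hK
    letI := actJnN D hK
    letI := actTnN r hK
    letI := actTinfN r hK
    TowerInput c0 D hρ0 hρ1 ((levelFamilyN p K).O E) ↥(Inertia.Ip p) p r
      (fun n => Jn D' (IsLocalRing.maximalIdeal ((levelFamilyN p K).O E)) n ×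
        Jn D' (IsLocalRing.maximalIdeal ((levelFamilyN p K).O E)) n) :=
  H.towerInput_of_fibre c0 hρ0 hρ1 FD hsurj hker hev hinj hP hQ satP satQ Sα Sβ α β hα0 hα1 hβ0
    hβ1 hK2α hK2β node hnode e0 he0 hcov ((levelFamilyN p K).O E) (hO_levelN hπ E) (rhoN hK E)
    (complete_levelN E) p (fun s => Cyclo.chiNat p (s : Gp p)) (rhoN_muP hK E) (β_ι E) (hInj E)
    (hfin0 E) (hnzd E)

local notation "LI" => levelInput c0 hρ0 hρ1 H FD hsurj hker hev hinj hP hQ satP satQ Sα Sβ α β
  hα0 hα1 hβ0 hβ1 hK2α hK2β node hnode e0 he0 hcov hK hπ β_ι hInj hfin0 hnzd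

/-- The toric maps of the level inputs are those of the toric family (`hI` of `ιTop`). -/
theorem levelInput_ι (E : NLevel p K) (n : ℕ) :
    letI := actJ1N c0 hK
    letI := actJnN D hK
    letI := actTnN r hK
    letI := actTinfN r hK
    (LI E).ι n = (toricFamily H (H.masterNodeSys FD hsurj hker hev hinj node hnode)).toTorFam.ι
      ((levelFamilyN p K).O E) (hO_levelN hπ E) n := rfl

/-- The norm maps of the level inputs are the pairs of Čech norms. -/
theorem levelInput_β (E : NLevel p K) (n : ℕ) :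
    letI := actJ1N c0 hK
    letI := actJnN D hK
    letI := actTnN r hK
    letI := actTinfN r hK
    (LI E).β n = βn2 Sα Sβ (IsLocalRing.maximalIdeal ((levelFamilyN p K).O E)) n := rfl

/-! ### The toric fields of `LocalGeom` for the level inputs -/

variable [FiniteDimensional ℚ K]

/-- **The toric map on the union for the level inputs**: the field `ιT` of `LocalGeom`
(`E := Fin r`, `A := Atop p K c0`). -/
def ιTopN : (Fin r → ↥(OneUnits.oneUnits p)) → Atop p K c0 :=
  letI := actJ1N c0 hK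
  letI := actJnN D hK
  letI := actTnN r hK
  letI := actTinfN r hK
  ιTop (G := fun _ => ↥(Inertia.Ip p))
    (Bt := fun L n => Jn D' (IsLocalRing.maximalIdeal ((levelFamilyN p K).O L)) n ×
      Jn D' (IsLocalRing.maximalIdeal ((levelFamilyN p K).O L)) n)
    (fun L => LI L) (toricFamily H (H.masterNodeSys FD hsurj hker hev hinj node hnode)).toTorFam
    (hO_levelN hπ) (fun _ _ => rfl)

local notation "ιN" => ιTopN c0 hρ0 hρ1 H FD hsurj hker hev hinj hP hQ satP satQ Sα Sβ α β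
  hα0 hα1 hβ0 hβ1 hK2α hK2β node hnode e0 he0 hcov hK hπ β_ι hInj hfin0 hnzd

/-- The field `ιT_mul` of `LocalGeom`. -/
theorem ιTopN_mul (a b : Fin r → ↥(OneUnits.oneUnits p)) : ιN (a * b) = ιN a + ιN b := by
  letI := actJ1N c0 hK
  letI := actJnN D hK
  letI := actTnN r hK
  letI := actTinfN r hK
  exact ιTop_mul (G := fun _ => ↥(Inertia.Ip p)) _ _ _ _ a b

/-- The field `ιT_smul` of `LocalGeom` (for the action `actTop c0 hK` on `A = Atop p K c0`). -/
theorem ιTopN_smul (τ : ↥(Inertia.Ip p)) (z : Fin r → ↥(OneUnits.oneUnits p)) :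
    letI := actTop c0 hK
    ιN (fun e => (τ : Gp p) • z e) = τ • ιN z := by
  letI := actJ1N c0 hK
  letI := actJnN D hK
  letI := actTnN r hK
  letI := actTinfN r hK
  exact ιTop_smul (G := fun _ => ↥(Inertia.Ip p)) hK _ _ _ _ τ z

/-- **The binder `ιT_mem` of `Local66.Glue.localGeom_of_fields`** (`J1 = Objects.J1top c0 P00 hPP`),
as soon as `J1Fam c0 E ≤ P00 E` (`Bal60.J1_le_P00`). -/
theorem ιTopN_mem_J1top (P00 : ∀ E : NLevel p K, Subgroup (PicO c0 E)) (hPP : Compatible c0 P00)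
    (hJP : ∀ E, J1Fam c0 E ≤ P00 E) (z : Fin r → ↥(OneUnits.oneUnits p)) :
    ιN z ∈ J1top c0 P00 hPP := by
  letI := actJ1N c0 hK
  letI := actJnN D hK
  letI := actTnN r hK
  letI := actTinfN r hK
  exact ιTop_mem_J1top (G := fun _ => ↥(Inertia.Ip p)) _ _ _ _ P00 hPP hJP z

/-- **The binder `toric` of `Local66.Glue.localGeom_of_fields`** for an abstract bridge `j : T →+ A`
(`T = J₀(N)(ℚ̄)[p]`) and a predicate `ker` (`π₁ x = 0 ∧ π₂ x = 0`); `hcmp` is the level-wise statement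
of the sub-cell CMP, with the formal kernel of the pair of Čech norms `βn2 Sα Sβ`. -/
theorem toricN_J1top (P00 : ∀ E : NLevel p K, Subgroup (PicO c0 E)) (hPP : Compatible c0 P00)
    {T : Type*} [AddCommGroup T] (j : T →+ Atop p K c0) (hpT : ∀ x : T, p • x = 0)
    (ker : T → Prop)
    (hinjE : ∀ E : NLevel p K, Function.Injective (bcE c0 E))
    (hext : ∀ E : NLevel p K, ∀ x ∈ J1Fam c0 E, bcOE c0 E x = 1 → x = 1)
    (hcmp : ∀ x : T, ker x → ∀ (E : NLevel p K) (y : J1 c0 ((levelFamilyN p K).O E)),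
      Additive.ofMul (bcO c0 E (y : PicX c0 ((levelFamilyN p K).O E))) = j x →
        ∀ n, βn2 Sα Sβ (IsLocalRing.maximalIdeal ((levelFamilyN p K).O E)) n
          (uJ c0 D hρ0 hρ1 ((levelFamilyN p K).O E) n y) = 1)
    (x : T) (hx : ker x) (hxJ : j x ∈ J1top c0 P00 hPP) :
    ∃ z : Fin r → ↥(OneUnits.oneUnits p), (∀ e, z e ^ p = 1) ∧ ιN z = j x := by
  letI := actJ1N c0 hK
  letI := actJnN D hK
  letI := actTnN r hK
  letI := actTinfN r hK
  exact toric_J1top (G := fun _ => ↥(Inertia.Ip p)) _ _ _ _ P00 hPP j hpT ker hinjE hext hcmp x hx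
    hxJ

end LevelInput

end Fermat.Agent.T1B.Union81
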