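/-
Fermat/Agent/T1B/Union81/Natural.lean  (helper81) -- T1B, sub-cell TORIC50, brick TORIC-UNION:
**naturality of the toric points in the complete DVR `O`.**

For a local `W`-algebra map `O → O'` of DVRs (instance form `[Algebra O O'] [IsScalarTower W O O']
[IsLocalHom (algebraMap O O')]`):
* `trHom n : O/𝔪ⁿ →ₐ[W] O'/𝔪'ⁿ`, `JnMap`, `TnMap`, `TinfMap` : the induced maps on the towers;
* `qT_TinfMap`, `uJ_J1map` : the projections `qT` and the truncations `uJ` are natural;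
* `toricPoint_natural` : if the toric maps `ι n` of two tower inputs `I` (over `O`) and `I'` (over
  `O'`) are natural, then `I'.toricPoint (TinfMap w) = J1map (I.toricPoint w)`.
-/
import Mathlib
import Fermat.Agent.T1B.Toric50.Assemble
import Fermat.Agent.T1.Red20.CoordMap

set_option autoImplicit false
set_option linter.unusedSectionVars false
set_option linter.style.haveILetI false

open TensorProduct

noncomputable section

namespace Fermat.Agent.T1B.Union81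

open Fermat.Agent.Jac Fermat.Agent.Jac.BaseChange75
open Fermat.Agent.T1.RedIface75 Fermat.Agent.T1.CechFormal70 Fermat.Agent.T1.Red11
open Fermat.Agent.T1.Red20.CoordFun Fermat.Agent.T1.Red20.CoordMap
open Fermat.Agent.T1B.Toric11 Fermat.Agent.T1B.Toric50 Fermat.Agent.T1B.Toric50.Assemble
open scoped Fermat.Agent.Jac.BaseChange75

universe u uG uG'

variable {W B0 B1 B01 : Type u} [CommRing W] [CommRing B0] [CommRing B1] [CommRing B01]
  [Algebra W B0] [Algebra W B1] [Algebra W B01] [Algebra B0 B01] [Algebra B1 B01]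
  [IsScalarTower W B0 B01] [IsScalarTower W B1 B01]
  (c0 : TwoChart W B0 B1 B01) {g : ℕ} (D : CechData W B0 B1 B01 g)
  (hρ0 : ∀ x, D.ρ0 x = algebraMap B0 B01 x) (hρ1 : ∀ x, D.ρ1 x = algebraMap B1 B01 x)
  (O O' : Type u) [CommRing O] [IsDomain O] [IsDiscreteValuationRing O] [Algebra W O]
  [CommRing O'] [IsDomain O'] [IsDiscreteValuationRing O'] [Algebra W O']
  [Algebra O O'] [IsScalarTower W O O'] [IsLocalHom (algebraMap O O')]

local notation "𝔪" => IsLocalRing.maximalIdeal O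
local notation "𝔪'" => IsLocalRing.maximalIdeal O'

/-! ### The maps on the towers -/

/-- The `W`-algebra map `O/𝔪ⁿ → O'/𝔪'ⁿ`. -/
def trHom (n : ℕ) : Tr 𝔪 n →ₐ[W] Tr 𝔪' n :=
  letI := truncFunAlgebra O O' n
  haveI := truncFunTowerW W O O' n
  IsScalarTower.toAlgHom W (Tr 𝔪 n) (Tr 𝔪' n)

variable (W) in
@[simp] theorem trHom_mk (n : ℕ) (x : O) :
    trHom (W := W) O O' n (Ideal.Quotient.mk (𝔪 ^ n) x) =
      Ideal.Quotient.mk (𝔪' ^ n) (algebraMap O O' x) :=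
  truncFun_mk (algebraMap O O') n x

variable (W) in
theorem trHom_mQ (n : ℕ) :
    mQ 𝔪 n ≤ (mQ 𝔪' n).comap ((trHom (W := W) O O' n : Tr 𝔪 n →ₐ[W] Tr 𝔪' n) : Tr 𝔪 n →+* Tr 𝔪' n) :=
  fun _ hx => truncFun_mem_mT (algebraMap O O') hx

theorem maximalIdeal_le_comap : 𝔪 ≤ Ideal.comap (algebraMap O O') 𝔪' := by
  rw [← Ideal.map_le_iff_le_comap]
  exact map_maximalIdeal_le (algebraMap O O')

/-- `Ĵ_D(O/𝔪ⁿ) → Ĵ_D(O'/𝔪'ⁿ)`. -/
def JnMap (n : ℕ) : Jn D 𝔪 n →* Jn D 𝔪' n :=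
  D.JhatMap (trHom (W := W) O O' n) (trHom_mQ W O O' n)

variable (W) in
/-- `(1 + 𝔪/𝔪ⁿ)^r → (1 + 𝔪'/𝔪'ⁿ)^r`. -/
def TnMap (r n : ℕ) : Tn r 𝔪 n →* Tn r 𝔪' n :=
  (unitsOneMap ((trHom (W := W) O O' n : Tr 𝔪 n →ₐ[W] Tr 𝔪' n) : Tr 𝔪 n →+* Tr 𝔪' n)
    (trHom_mQ W O O' n)).compLeft (Fin r)

/-- `(1 + 𝔪)^r → (1 + 𝔪')^r`. -/
def TinfMap (r : ℕ) : Tinf r 𝔪 →* Tinf r 𝔪' :=
  (unitsOneMap (algebraMap O O') (maximalIdeal_le_comap O O')).compLeft (Fin r)

theorem TinfMap_injective (r : ℕ) (hinj : Function.Injective (algebraMap O O')) :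
    Function.Injective (TinfMap O O' r) := by
  intro w w' h
  funext i
  apply Subtype.ext
  apply Units.ext
  apply hinj
  have := congrArg (fun t : Tinf r 𝔪' => (((t i : unitsOne 𝔪') : O'ˣ) : O')) h
  simpa [TinfMap] using this

variable (W) in
/-- **Naturality of the projections** `(1 + 𝔪)^r → (1 + 𝔪/𝔪ⁿ)^r`. -/
theorem qT_TinfMap (r n : ℕ) (w : Tinf r 𝔪) :
    qT (W := W) r 𝔪' n (TinfMap O O' r w) = TnMap W O O' r n (qT (W := W) r 𝔪 n w) := by
  funext i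
  apply Subtype.ext
  apply Units.ext
  simp [TinfMap, TnMap, qT_apply, quo]

/-- **Naturality of the truncations** `J̃¹(O) → Ĵ_D(O/𝔪ⁿ)`. -/
theorem uJ_J1map (n : ℕ) (y : J1 c0 O) :
    uJ c0 D hρ0 hρ1 O' n (J1map c0 O O' y) = JnMap D O O' n (uJ c0 D hρ0 hρ1 O n y) := by
  apply uJ_unique
  letI := truncFunAlgebra O O' n
  haveI := truncFunTowerO O O' n
  haveI := truncFunTowerW W O O' n
  have h := map_jhatToPic c0 D hρ0 hρ1 (Tr 𝔪 n) (mQ_nilpotent 𝔪 n) (Tr 𝔪' n)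
    (mQ_nilpotent 𝔪' n) (trHom_mQ W O O' n) (uJ c0 D hρ0 hρ1 O n y)
  rw [jhatToPic_uJ, PicX.map_comp c0 O (Tr 𝔪 n) (Tr 𝔪' n)] at h
  rw [coe_J1map, PicX.map_comp c0 O O' (Tr 𝔪' n), h]
  rfl

/-! ### Naturality of the toric points -/

variable {c0 D hρ0 hρ1 O O'}
variable {G : Type uG} [Group G] {G' : Type uG'} [Group G'] {p r : ℕ}
  {Bt Bt' : ℕ → Type u} [∀ n, CommGroup (Bt n)] [∀ n, CommGroup (Bt' n)]
  [MulDistribMulAction G (J1 c0 O)]
  [∀ n, MulDistribMulAction G (Jn D (IsLocalRing.maximalIdeal O) n)]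
  [∀ n, MulDistribMulAction G (Tn r (IsLocalRing.maximalIdeal O) n)]
  [MulDistribMulAction G (Tinf r (IsLocalRing.maximalIdeal O))]
  [MulDistribMulAction G' (J1 c0 O')]
  [∀ n, MulDistribMulAction G' (Jn D (IsLocalRing.maximalIdeal O') n)]
  [∀ n, MulDistribMulAction G' (Tn r (IsLocalRing.maximalIdeal O') n)]
  [MulDistribMulAction G' (Tinf r (IsLocalRing.maximalIdeal O'))]

/-- **Naturality of the toric points**: if the toric maps on the towers are natural for `O → O'`,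
the toric point of the image of `w` is the image of the toric point of `w`. -/
theorem toricPoint_natural (I : TowerInput c0 D hρ0 hρ1 O G p r Bt)
    (I' : TowerInput c0 D hρ0 hρ1 O' G' p r Bt')
    (hι : ∀ (n : ℕ) (z : Tn r (IsLocalRing.maximalIdeal O) n),
      I'.ι n (TnMap W O O' r n z) = JnMap D O O' n (I.ι n z))
    (w : Tinf r (IsLocalRing.maximalIdeal O)) :
    I'.toricPoint (TinfMap O O' r w) = J1map c0 O O' (I.toricPoint w) := by
  symm
  apply I'.toricPoint_unique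
  intro n
  rw [uJ_J1map, I.uJ_toricPoint, ← hι, qT_TinfMap]

/-- The same in `Pic X_{O'}`. -/
theorem coe_toricPoint_natural (I : TowerInput c0 D hρ0 hρ1 O G p r Bt)
    (I' : TowerInput c0 D hρ0 hρ1 O' G' p r Bt')
    (hι : ∀ (n : ℕ) (z : Tn r (IsLocalRing.maximalIdeal O) n),
      I'.ι n (TnMap W O O' r n z) = JnMap D O O' n (I.ι n z))
    (w : Tinf r (IsLocalRing.maximalIdeal O)) :
    ((I'.toricPoint (TinfMap O O' r w) : J1 c0 O') : PicX c0 O') =
      PicX.map c0 O O' ((I.toricPoint w : J1 c0 O) : PicX c0 O) := by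
  rw [toricPoint_natural I I' hι w, coe_J1map]

end Fermat.Agent.T1B.Union81
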